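/-
S48 (Deligne-Serre), block BB, sub-block T-b (diamond operators).  Sub-architect: helper297.
GENERIC PART: for `hL : IsLvl F₀ H N` and `σ ∈ SL(2,ℤ)` normalising `H`, the automorphism
`diam hL hσ : FB F₀ ≃ₐ[ℚ̄] FB F₀`, `u ↦ u ∘ σ`, characterised by `Psi hL (diam hL hσ u) = σ⁻¹ • Psi hL u`.
-/
import Fermat.Agent.S48.BB.U.Basic

set_option autoImplicit false

noncomputable section

namespace Fermat.Agent.S48.BB.T

open ModularCurve CongruenceSubgroup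
open Fermat.Agent.S24 Fermat.Agent.S24.B Fermat.Agent.GAL.Mult Fermat.Agent.S48.BB.U
open scoped MatrixGroups

/-- `σ` normalises `H`. -/
def Nrm (H : Subgroup SL(2, ℤ)) (σ : SL(2, ℤ)) : Prop := ∀ γ : SL(2, ℤ), γ ∈ H ↔ σ * γ * σ⁻¹ ∈ H

namespace Nrm

variable {H : Subgroup SL(2, ℤ)} {σ σ' : SL(2, ℤ)}

theorem of_mem (h : σ ∈ H) : Nrm H σ := fun γ =>
  ⟨fun hγ => H.mul_mem (H.mul_mem h hγ) (H.inv_mem h), fun hγ => by
    have := H.mul_mem (H.mul_mem (H.inv_mem h) hγ) h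
    simpa [mul_assoc] using this⟩

theorem one : Nrm H 1 := of_mem H.one_mem

theorem inv (h : Nrm H σ) : Nrm H σ⁻¹ := fun γ => by
  rw [h (σ⁻¹ * γ * σ⁻¹⁻¹)]
  simp [mul_assoc]

theorem mul (h : Nrm H σ) (h' : Nrm H σ') : Nrm H (σ * σ') := fun γ => by
  rw [h' γ, h (σ' * γ * σ'⁻¹)]
  simp [mul_assoc]

end Nrm

variable {F₀ : IntermediateField ℚ (LaurentSeries ℚ)} {H : Subgroup SL(2, ℤ)} {N : ℕ} [NeZero N]

theorem exists_Psi_eq_inv_smul (hL : IsLvl F₀ H N) {σ : SL(2, ℤ)} (hσ : Nrm H σ) (u : FB F₀) :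
    ∃ f : FB F₀, Psi hL f = σ⁻¹ • Psi hL u := by
  refine exists_Psi_eq_of_fixed hL _ fun γ hγ => ?_
  have h1 : γ * σ⁻¹ = σ⁻¹ * (σ * γ * σ⁻¹) := by simp [mul_assoc]
  rw [← mul_smul, h1, mul_smul, smul_Psi_of_mem hL _ ((hσ γ).1 hγ)]

/-- `u ↦ u ∘ σ` as an algebra homomorphism. -/
def diamHom (hL : IsLvl F₀ H N) {σ : SL(2, ℤ)} (hσ : Nrm H σ) : FB F₀ →ₐ[Kbar] FB F₀ where
  toFun u := (exists_Psi_eq_inv_smul hL hσ u).choose
  map_one' := Psi_injective hL (by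
    rw [(exists_Psi_eq_inv_smul hL hσ _).choose_spec, map_one, smul_one])
  map_mul' f g := Psi_injective hL (by
    rw [(exists_Psi_eq_inv_smul hL hσ _).choose_spec, map_mul, map_mul, smul_mul',
      (exists_Psi_eq_inv_smul hL hσ _).choose_spec, (exists_Psi_eq_inv_smul hL hσ _).choose_spec])
  map_zero' := Psi_injective hL (by
    rw [(exists_Psi_eq_inv_smul hL hσ _).choose_spec, map_zero, smul_zero])
  map_add' f g := Psi_injective hL (by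
    rw [(exists_Psi_eq_inv_smul hL hσ _).choose_spec, map_add, map_add, smul_add,
      (exists_Psi_eq_inv_smul hL hσ _).choose_spec, (exists_Psi_eq_inv_smul hL hσ _).choose_spec])
  commutes' c := Psi_injective hL (by
    rw [(exists_Psi_eq_inv_smul hL hσ _).choose_spec, AlgHom.commutes, smul_algebraMap_Kbar_LL])

theorem Psi_diamHom (hL : IsLvl F₀ H N) {σ : SL(2, ℤ)} (hσ : Nrm H σ) (u : FB F₀) :
    Psi hL (diamHom hL hσ u) = σ⁻¹ • Psi hL u := (exists_Psi_eq_inv_smul hL hσ u).choose_spec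

theorem diamHom_inv_diamHom (hL : IsLvl F₀ H N) {σ : SL(2, ℤ)} (hσ : Nrm H σ) (u : FB F₀) :
    diamHom hL hσ.inv (diamHom hL hσ u) = u := Psi_injective hL (by
  rw [Psi_diamHom, Psi_diamHom, inv_inv, smul_inv_smul])

theorem diamHom_diamHom_inv (hL : IsLvl F₀ H N) {σ : SL(2, ℤ)} (hσ : Nrm H σ) (u : FB F₀) :
    diamHom hL hσ (diamHom hL hσ.inv u) = u := Psi_injective hL (by
  rw [Psi_diamHom, Psi_diamHom, inv_inv, inv_smul_smul])

/-- **The diamond operator** `u ↦ u ∘ σ`. -/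
def diam (hL : IsLvl F₀ H N) {σ : SL(2, ℤ)} (hσ : Nrm H σ) : FB F₀ ≃ₐ[Kbar] FB F₀ :=
  AlgEquiv.ofAlgHom (diamHom hL hσ) (diamHom hL hσ.inv)
    (AlgHom.ext fun u => diamHom_diamHom_inv hL hσ u) (AlgHom.ext fun u => diamHom_inv_diamHom hL hσ u)

theorem Psi_diam (hL : IsLvl F₀ H N) {σ : SL(2, ℤ)} (hσ : Nrm H σ) (u : FB F₀) :
    Psi hL (diam hL hσ u) = σ⁻¹ • Psi hL u := Psi_diamHom hL hσ u

/-- `diam hL hσ u` is characterised by `Psi`. -/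
theorem diam_eq_iff (hL : IsLvl F₀ H N) {σ : SL(2, ℤ)} (hσ : Nrm H σ) (u v : FB F₀) :
    diam hL hσ u = v ↔ Psi hL v = σ⁻¹ • Psi hL u := by
  constructor
  · rintro rfl
    exact Psi_diam hL hσ u
  · intro h
    exact Psi_injective hL (by rw [Psi_diam, h])

theorem diam_mul (hL : IsLvl F₀ H N) {σ σ' : SL(2, ℤ)} (hσ : Nrm H σ) (hσ' : Nrm H σ') (u : FB F₀) :
    diam hL (hσ.mul hσ') u = diam hL hσ' (diam hL hσ u) := Psi_injective hL (by
  rw [Psi_diam, Psi_diam, Psi_diam, mul_inv_rev, mul_smul])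

theorem diam_of_mem (hL : IsLvl F₀ H N) {σ : SL(2, ℤ)} (hσ : Nrm H σ) (h : σ ∈ H) (u : FB F₀) :
    diam hL hσ u = u := Psi_injective hL (by
  rw [Psi_diam, smul_Psi_of_mem hL _ (H.inv_mem h)])

/-- `diam` only depends on the class of `σ` modulo `H`. -/
theorem diam_congr (hL : IsLvl F₀ H N) {σ σ' : SL(2, ℤ)} (hσ : Nrm H σ) (hσ' : Nrm H σ')
    (h : σ * σ'⁻¹ ∈ H) (u : FB F₀) : diam hL hσ u = diam hL hσ' u := Psi_injective hL (by
  have h1 : σ⁻¹ = σ'⁻¹ * (σ * σ'⁻¹)⁻¹ := by simp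
  rw [Psi_diam, Psi_diam, h1, mul_smul, smul_Psi_of_mem hL _ (H.inv_mem h)])

theorem diam_comm (hL : IsLvl F₀ H N) {σ σ' : SL(2, ℤ)} (hσ : Nrm H σ) (hσ' : Nrm H σ')
    (h : (σ * σ') * (σ' * σ)⁻¹ ∈ H) (u : FB F₀) :
    diam hL hσ (diam hL hσ' u) = diam hL hσ' (diam hL hσ u) := by
  rw [← diam_mul, ← diam_mul]
  exact (diam_congr hL (hσ.mul hσ') (hσ'.mul hσ) h u).symm

end Fermat.Agent.S48.BB.T

end
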